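import Fermat.Agent.S56.Asm.Count
import Fermat.Agent.S56.TW.Sel

/-!
# TW / Sel / Count : [SEL] the Selmer count with STRICT conditions at the hard primes.

`rbar : GQ →* M2 k` with `RbarHyp p rbar`.  `S₀ ∋ p` a finite set of primes outside which `rbar` is unramified, `T ⊆ S₀ \ {p}` the *hard primes*: `rbar|_{D_r}` is scalar.
Local conditions `locFamT rbar Lp T`: `Lp` at `p` (`#Lp ≤ #k⁴`: flat or strictly ordinary, `S56.exists_flat_condition`, `S56.exists_ord_condition`), `0` at `r ∈ T`,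
`Lur` (unramified / minimal) at the other `v ∈ S₀`, NO condition at `q ∈ Q`.
* `card_Sel_strict_le` : `#Sel * #k^(3 #T) ≤ #k^(#Q + 3)`  (cocycles: `Sel ⊇ B¹`, `#B¹ = #k³`), from `S56.GWStatement`.
* `exists_tw_strict`   : `∃ S₀ ⊇ S₀', ∃ r, ∀ n, ∀ Av, ∃ Q`, `#Q = r`, Taylor-Wiles primes `q ≡ 1 mod p^(n+1)` outside `S₀ ∪ Av`, with this bound for every `Lp`.
-/

set_option autoImplicit false

open ExtCitation Polynomial

namespace Fermat.Agent.TW.Sel

open Fermat.Agent.S56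
open CFT (levS levAll decomp Z1 B1 Qb IsSmooth)

variable {k : Type} [Field k] [Finite k] {p : ℕ} [Fact p.Prime] [CharP k p]

open scoped Classical in
/-- the family of local conditions: `0` at `T`, `Lp` at `p`, `Lur` elsewhere -/
noncomputable def locFamT (rbar : GQ →* M2 k) (Lp : Submodule k (↥(decomp (pPrime p)) → sl2 k))
    (T : Finset Nat.Primes) (v : Nat.Primes) : Submodule k (↥(decomp v) → sl2 k) :=
  if v ∈ T then ⊥ else locFam rbar Lp v

lemma locFamT_mem (rbar : GQ →* M2 k) (Lp : Submodule k (↥(decomp (pPrime p)) → sl2 k))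
    {T : Finset Nat.Primes} {v : Nat.Primes} (hv : v ∈ T) : locFamT rbar Lp T v = ⊥ := by
  simp [locFamT, hv]

lemma locFamT_not_mem (rbar : GQ →* M2 k) (Lp : Submodule k (↥(decomp (pPrime p)) → sl2 k))
    {T : Finset Nat.Primes} {v : Nat.Primes} (hv : v ∉ T) :
    locFamT rbar Lp T v = locFam rbar Lp v := by
  simp [locFamT, hv]

/-- `rbar|_{D_r}` is scalar -/
def IsScalarAt (rbar : GQ →* M2 k) (r : Nat.Primes) : Prop :=
  ∀ σ ∈ decomp r, ∃ a : k, rbar σ = a • (1 : M2 k)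

omit [Finite k] in
/-- coboundaries vanish on `D_r` when `rbar|_{D_r}` is scalar -/
theorem B1loc_eq_bot {rbar : GQ →* M2 k} {r : Nat.Primes} (hr : IsScalarAt rbar r) :
    B1loc (adRep rbar) r = ⊥ := by
  rw [eq_bot_iff]
  rintro c ⟨w, rfl⟩
  rw [Submodule.mem_bot]
  funext σ
  obtain ⟨a, ha⟩ := hr σ σ.2
  have h1 : rbar (σ : GQ) * rbar (σ : GQ)⁻¹ = 1 := by rw [← map_mul, mul_inv_cancel, map_one]
  apply Subtype.ext
  have h2 : rbar (σ : GQ) * (w : M2 k) * rbar (σ : GQ)⁻¹ = (w : M2 k) := by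
    calc rbar (σ : GQ) * (w : M2 k) * rbar (σ : GQ)⁻¹
        = (w : M2 k) * (rbar (σ : GQ) * rbar (σ : GQ)⁻¹) := by
          rw [ha]; simp only [Matrix.smul_mul, Matrix.mul_smul, one_mul, mul_one]
      _ = (w : M2 k) := by rw [h1, mul_one]
  simp [CFT.d01_apply, h2]

/-- the arithmetic -/
theorem count_aux_strict (K X s t u : ℕ) (hK : 0 < K) (hs : u + 1 ≤ s)
    (h : X * (K ^ 3) ^ (s + t) * K ≤ (K ^ 4 * (K ^ 3) ^ (s - 1 - u)) * (K ^ 4) ^ t * K ^ 3) :
    X * (K ^ 3) ^ u ≤ K ^ (t + 3) := by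
  obtain ⟨s', rfl⟩ : ∃ s', s = s' + u + 1 := ⟨s - u - 1, by omega⟩
  have e0 : s' + u + 1 - 1 - u = s' := by omega
  have e1 : X * (K ^ 3) ^ (s' + u + 1 + t) * K = X * (K ^ 3) ^ u * K ^ (3 * s' + 3 * t + 4) := by
    rw [← pow_mul, ← pow_mul, mul_assoc, ← pow_succ, mul_assoc, ← pow_add]; congr 2; ring
  have e2 : (K ^ 4 * (K ^ 3) ^ (s' + u + 1 - 1 - u)) * (K ^ 4) ^ t * K ^ 3 =
      K ^ (t + 3) * K ^ (3 * s' + 3 * t + 4) := by
    rw [e0, ← pow_mul, ← pow_mul, ← pow_add, ← pow_add, ← pow_add, ← pow_add]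
    congr 1; ring
  rw [e1, e2] at h
  exact Nat.le_of_mul_le_mul_right h (pow_pos hK _)

/-- **[SEL-COUNT]** -/
theorem card_Sel_strict_le (hp2 : p ≠ 2) {rbar : GQ →* M2 k} (h : RbarHyp p rbar)
    (S₀ Q T : Finset Nat.Primes) (hdisj : Disjoint S₀ Q) (hpS : pPrime p ∈ S₀)
    (hur : UnramOutside rbar S₀)
    (hQ : ∀ q ∈ Q, p ∣ (q : ℕ) - 1 ∧ ∃ φ : GQ, (primeLocalPlace q).IsFrobeniusAt φ (q : ℕ) ∧
      ∃ α β : k, α ≠ β ∧ (rbar φ).charpoly = (X - C α) * (X - C β))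
    (hkill : ∀ b ∈ Z1 (levS (S₀ ∪ Q)) (adTw p rbar),
      (∀ q ∈ Q, resLoc k q b ∈ B1loc (adTw p rbar) q) → b ∈ B1 (adTw p rbar))
    (hGW : GWStatement p rbar S₀ Q)
    (hTS : T ⊆ S₀) (hpT : pPrime p ∉ T) (hT : ∀ r ∈ T, IsScalarAt rbar r)
    (Lp : Submodule k (↥(decomp (pPrime p)) → sl2 k))
    (hLpB : B1loc (adRep rbar) (pPrime p) ≤ Lp) (hLpZ : Lp ≤ Z1loc (adRep rbar) (pPrime p))
    (hLpcard : Nat.card ↥Lp ≤ Nat.card k ^ 4) :
    Finite ↥(Sel (S₀ ∪ Q) S₀ (adRep rbar) (locFamT rbar Lp T)) ∧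
      Nat.card ↥(Sel (S₀ ∪ Q) S₀ (adRep rbar) (locFamT rbar Lp T)) * (Nat.card k ^ 3) ^ T.card ≤
        Nat.card k ^ (Q.card + 3) := by
  classical
  have hur' : UnramOutside rbar (S₀ ∪ Q) := hur.mono Finset.subset_union_left
  have hsm : IsSmooth (levS (S₀ ∪ Q)) (adRep rbar) := adRep_smooth h.cont _ hur'
  have hsmA : IsSmooth levAll (adRep rbar) := isSmooth_levAll_of_levS hsm
  obtain ⟨c, hc, hχ, hfin, hle⟩ := hGW (locFamT rbar Lp T)
    (fun v _ => by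
      by_cases hvT : v ∈ T
      · rw [locFamT_mem rbar Lp hvT, B1loc_eq_bot (hT v hvT)]
      · rw [locFamT_not_mem rbar Lp hvT]
        by_cases hv : v = pPrime p
        · subst hv; rw [locFam_p]; exact hLpB
        · rw [locFam_ne rbar Lp hv]; exact B1loc_le_Lur _ hsmA v)
    (fun v _ => by
      by_cases hvT : v ∈ T
      · rw [locFamT_mem rbar Lp hvT]; exact bot_le
      · rw [locFamT_not_mem rbar Lp hvT]
        by_cases hv : v = pPrime p
        · subst hv; rw [locFam_p]; exact hLpZ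
        · rw [locFam_ne rbar Lp hv]; exact Lur_le_Z1loc _ v)
    hkill
  refine ⟨hfin, ?_⟩
  have hK : 0 < Nat.card k := Nat.card_pos
  rw [card_sl2, card_fixed_conj hp2 h.det c hc hχ] at hle
  have hpST : pPrime p ∈ S₀ \ T := Finset.mem_sdiff.2 ⟨hpS, hpT⟩
  have hcardST : (S₀ \ T).card = S₀.card - T.card := Finset.card_sdiff_of_subset hTS
  have hS : ∏ v ∈ S₀, Nat.card ↥(locFamT rbar Lp T v) ≤
      Nat.card k ^ 4 * (Nat.card k ^ 3) ^ (S₀.card - 1 - T.card) := by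
    rw [← Finset.prod_sdiff hTS]
    have h1 : ∏ v ∈ T, Nat.card ↥(locFamT rbar Lp T v) = 1 := by
      refine Finset.prod_eq_one fun v hv => ?_
      rw [locFamT_mem rbar Lp hv]
      exact Nat.card_unique
    rw [h1, mul_one, ← Finset.mul_prod_erase (S₀ \ T) _ hpST, locFamT_not_mem rbar Lp hpT, locFam_p]
    have e : S₀.card - 1 - T.card = ((S₀ \ T).erase (pPrime p)).card := by
      rw [Finset.card_erase_of_mem hpST, hcardST]; omega
    rw [e]
    refine Nat.mul_le_mul hLpcard (Finset.prod_le_pow_card _ _ _ fun v hv => ?_)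
    have hv' := Finset.mem_of_mem_erase hv
    rw [locFamT_not_mem rbar Lp (Finset.mem_sdiff.1 hv').2,
      locFam_ne rbar Lp (Finset.ne_of_mem_erase hv), ← card_sl2]
    exact (card_Lur_le (adRep rbar) v).2
  have hQc : ∏ q ∈ Q, Nat.card ↥(Z1loc (adRep rbar) q) ≤ (Nat.card k ^ 4) ^ Q.card := by
    refine Finset.prod_le_pow_card _ _ _ fun q hq => ?_
    obtain ⟨hq1, φ, hφ, α, β, hαβ, hchar⟩ := hQ q hq
    have hqS : q ∉ S₀ := fun hq' => (Finset.disjoint_left.1 hdisj hq') hq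
    have hqp : (q : ℕ) ≠ p := fun e => hqS (by
      have : q = pPrime p := Subtype.ext e
      rw [this]; exact hpS)
    exact (card_Z1loc_le rbar h.cont q hqp hq1
      (hur q hqS _ (liesOverPrime_primeLocalPlace q)) φ hφ α β hαβ hchar).2
  have hcardle : T.card + 1 ≤ S₀.card := by
    have h1 : 0 < (S₀ \ T).card := Finset.card_pos.2 ⟨_, hpST⟩
    have h2 : T.card ≤ S₀.card := Finset.card_le_card hTS
    omega
  refine count_aux_strict (Nat.card k) _ S₀.card Q.card T.card hK hcardle (hle.trans ?_)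
  exact Nat.mul_le_mul_right _ (Nat.mul_le_mul hS hQc)

end Fermat.Agent.TW.Sel
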