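import Fermat.Agent.TW.Sel.Count

/-!
# TW / Sel / Exists : [SEL] Taylor-Wiles primes for the strict Selmer problem.
-/

set_option autoImplicit false
set_option linter.unusedSectionVars false

open ExtCitation Polynomial

namespace Fermat.Agent.TW.Sel

open Fermat.Agent.S56
open CFT (levS levAll decomp Z1 B1 Qb IsSmooth)

variable {k : Type} [Field k] [Finite k] {p : ℕ} [Fact p.Prime] [CharP k p]

/-- a set of Taylor-Wiles primes of depth `n` -/
def IsTWSet (p : ℕ) (rbar : GQ →* M2 k) (n : ℕ) (Q : Finset Nat.Primes) : Prop :=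
  ∀ q ∈ Q, p ^ (n + 1) ∣ (q : ℕ) - 1 ∧ ∃ φ : GQ, (primeLocalPlace q).IsFrobeniusAt φ (q : ℕ) ∧
    ∃ α β : k, α ≠ β ∧ (rbar φ).charpoly = (X - C α) * (X - C β)

/-- **[SEL]** -/
theorem exists_tw_strict (hp2 : p ≠ 2) {rbar : GQ →* M2 k} (h : RbarHyp p rbar)
    (S₀' T : Finset Nat.Primes) (hpS : pPrime p ∈ S₀') (hur : UnramOutside rbar S₀')
    (hTS : T ⊆ S₀') (hpT : pPrime p ∉ T) (hT : ∀ r ∈ T, IsScalarAt rbar r) :
    ∃ (S₀ : Finset Nat.Primes) (r : ℕ), S₀' ⊆ S₀ ∧ ∀ (n : ℕ) (Av : Finset ℕ),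
      ∃ Q : Finset Nat.Primes, Q.card = r ∧ Disjoint S₀ Q ∧ (∀ q ∈ Q, (q : ℕ) ∉ Av) ∧
        IsTWSet p rbar n Q ∧
        ∀ Lp : Submodule k (↥(decomp (pPrime p)) → sl2 k),
          B1loc (adRep rbar) (pPrime p) ≤ Lp → Lp ≤ Z1loc (adRep rbar) (pPrime p) →
          Nat.card ↥Lp ≤ Nat.card k ^ 4 →
          Finite ↥(Sel (S₀ ∪ Q) S₀ (adRep rbar) (locFamT rbar Lp T)) ∧
            Nat.card ↥(Sel (S₀ ∪ Q) S₀ (adRep rbar) (locFamT rbar Lp T)) *
              (Nat.card k ^ 3) ^ T.card ≤ Nat.card k ^ (r + 3) := by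
  classical
  obtain ⟨S₁, hS₁⟩ := exists_S1_greenberg_wiles hp2 h
  have hpS' : pPrime p ∈ S₀' ∪ S₁ := Finset.mem_union_left _ hpS
  have hur' : UnramOutside rbar (S₀' ∪ S₁) := hur.mono Finset.subset_union_left
  obtain ⟨r, hr⟩ := exists_tw_primes hp2 h (S₀' ∪ S₁) hpS' hur'
  refine ⟨S₀' ∪ S₁, r, Finset.subset_union_left, fun n Av => ?_⟩
  obtain ⟨qv, hinj, hq, hkill⟩ := hr n (Av ∪ (S₀' ∪ S₁).image (fun q : Nat.Primes => (q : ℕ)))
  have hcard : (Finset.univ.image qv).card = r := by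
    rw [Finset.card_image_of_injective _ hinj, Finset.card_univ, Fintype.card_fin]
  have hdisj : Disjoint (S₀' ∪ S₁) (Finset.univ.image qv) := by
    rw [Finset.disjoint_left]
    intro q hq1 hq2
    obtain ⟨i, -, rfl⟩ := Finset.mem_image.1 hq2
    exact (hq i).1 (Finset.mem_union_right _ (Finset.mem_image_of_mem _ hq1))
  have hTW : IsTWSet p rbar n (Finset.univ.image qv) := by
    intro q hq'
    obtain ⟨i, -, rfl⟩ := Finset.mem_image.1 hq'
    exact (hq i).2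
  have hQ : ∀ q ∈ Finset.univ.image qv, p ∣ (q : ℕ) - 1 ∧ ∃ φ : GQ,
      (primeLocalPlace q).IsFrobeniusAt φ (q : ℕ) ∧
      ∃ α β : k, α ≠ β ∧ (rbar φ).charpoly = (X - C α) * (X - C β) := fun q hq' =>
    ⟨(dvd_pow_self p (Nat.succ_ne_zero n)).trans (hTW q hq').1, (hTW q hq').2⟩
  refine ⟨Finset.univ.image qv, hcard, hdisj, fun q hq' => ?_, hTW, fun Lp hB hZ hc => ?_⟩
  · obtain ⟨i, -, rfl⟩ := Finset.mem_image.1 hq'
    exact fun hmem => (hq i).1 (Finset.mem_union_left _ hmem)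
  · have := card_Sel_strict_le hp2 h (S₀' ∪ S₁) (Finset.univ.image qv) T hdisj hpS' hur' hQ hkill
      (hS₁ _ _ Finset.subset_union_right hdisj hpS' hur' hQ)
      (hTS.trans Finset.subset_union_left) hpT hT Lp hB hZ hc
    rwa [hcard] at this

end Fermat.Agent.TW.Sel
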